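import Mathlib

set_option autoImplicit false

namespace Fermat.Agent.Helper5

open Polynomial

/-- Kaplansky, Commutative Rings, Thm 67: if `R` is a local subring of a field `L`, integrally
closed in `L`, and `u ≠ 0` is a root of a polynomial over `R` one of whose coefficients is a unit,
then `u ∈ R` or `u⁻¹ ∈ R`. -/
theorem mem_or_inv_mem_of_aeval_eq_zero {L : Type*} [Field L] (R : Subring L) [IsLocalRing R]
    (hR : ∀ x : L, IsIntegral R x → x ∈ R) :
    ∀ (n : ℕ) (f : Polynomial R), f.natDegree ≤ n → (∃ i, IsUnit (f.coeff i)) →
      ∀ u : L, u ≠ 0 → Polynomial.aeval u f = 0 → u ∈ R ∨ u⁻¹ ∈ R := by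
  intro n
  induction n with
  | zero =>
    intro f hf ⟨i, hi⟩ u hu0 hfu
    exfalso
    rw [Polynomial.natDegree_le_iff_degree_le] at hf
    have hfC := Polynomial.eq_C_of_degree_le_zero hf
    rw [hfC, Polynomial.aeval_C] at hfu
    have h0 : f.coeff 0 = 0 := by
      have : (algebraMap R L) (f.coeff 0) = 0 := hfu
      exact (FaithfulSMul.algebraMap_injective R L) (by simpa using this)
    rw [hfC, h0] at hi
    simp at hi
  | succ n ih =>
    intro f hf ⟨i, hi⟩ u hu0 hfu
    by_cases hdeg : f.natDegree ≤ n
    · exact ih f hdeg ⟨i, hi⟩ u hu0 hfu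
    have hdeg' : f.natDegree = n + 1 := by omega
    have hf0 : f ≠ 0 := by
      rintro rfl
      simp at hdeg'
    by_cases ha : IsUnit f.leadingCoeff
    · left
      apply hR
      refine ⟨C (ha.unit⁻¹ : Rˣ).1 * f, ?_, ?_⟩
      · rw [Polynomial.Monic, Polynomial.leadingCoeff_mul', Polynomial.leadingCoeff_C]
        · simp
        · rw [Polynomial.leadingCoeff_C]; simp
      · rw [Polynomial.eval₂_mul, ← Polynomial.aeval_def, ← Polynomial.aeval_def, hfu, mul_zero]
    · have hb : IsIntegral R (f.leadingCoeff • u) := isIntegral_leadingCoeff_smul f u hfu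
      have hbR := hR _ hb
      set b' : R := ⟨f.leadingCoeff • u, hbR⟩ with hb'
      have hb'u : (b' : L) = (f.leadingCoeff : L) * u := rfl
      by_cases hbu : IsUnit b'
      · right
        have hbne : (b' : L) ≠ 0 := by
          intro h0
          have : b' = 0 := Subtype.ext h0
          rw [this] at hbu
          simp at hbu
        have : u⁻¹ = (f.leadingCoeff : L) * ((hbu.unit⁻¹ : Rˣ).1 : L) := by
          have h1 : (b' : L) * ((hbu.unit⁻¹ : Rˣ).1 : L) = 1 := by
            have h2 : b' * (hbu.unit⁻¹ : Rˣ).1 = 1 := hbu.mul_val_inv
            have h3 : ((b' * (hbu.unit⁻¹ : Rˣ).1 : R) : L) = ((1 : R) : L) := by rw [h2]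
            rw [Subring.coe_mul, Subring.coe_one] at h3
            exact h3
          have hlc : (f.leadingCoeff : L) ≠ 0 := by
            intro h0; rw [hb'u, h0, zero_mul] at hbne; exact hbne rfl
          rw [hb'u] at h1
          apply inv_eq_of_mul_eq_one_right
          rw [← h1]; ring
        rw [this]
        exact R.mul_mem f.leadingCoeff.2 ((hbu.unit⁻¹ : Rˣ).1).2
      · -- reduce the degree
        set g : Polynomial R := f.eraseLead + C b' * X ^ n with hg
        have hgdeg : g.natDegree ≤ n := by
          refine (Polynomial.natDegree_add_le _ _).trans (max_le ?_ ?_)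
          · have := Polynomial.eraseLead_natDegree_le f
            omega
          · exact (Polynomial.natDegree_C_mul_X_pow_le _ _)
        have hgu : Polynomial.aeval u g = 0 := by
          have h1 : Polynomial.aeval u f.eraseLead + Polynomial.aeval u (C f.leadingCoeff * X ^ (n+1)) = 0 := by
            rw [← map_add, ← hdeg', Polynomial.eraseLead_add_C_mul_X_pow, hfu]
          rw [hg, map_add, map_mul, Polynomial.aeval_C, map_pow, Polynomial.aeval_X]
          rw [map_mul, Polynomial.aeval_C, map_pow, Polynomial.aeval_X] at h1
          have : (algebraMap R L) b' = (algebraMap R L) f.leadingCoeff * u := rfl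
          rw [this]
          rw [← h1]; ring
        have hi_le : i ≤ n := by
          have h1 : i ≤ f.natDegree := by
            by_contra hlt
            rw [not_le] at hlt
            rw [Polynomial.coeff_eq_zero_of_natDegree_lt hlt] at hi
            simp at hi
          have h2 : i ≠ f.natDegree := by
            rintro rfl
            exact ha hi
          omega
        refine ih g hgdeg ⟨i, ?_⟩ u hu0 hgu
        have hcoeff : g.coeff i = f.coeff i + (if i = n then b' else 0) := by
          rw [hg, Polynomial.coeff_add, Polynomial.eraseLead_coeff_of_ne, Polynomial.coeff_C_mul_X_pow]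
          omega
        rw [hcoeff]
        split_ifs with hin
        · by_contra hnu
          have hmem : f.coeff i + b' ∈ IsLocalRing.maximalIdeal R := hnu
          have hbmem : b' ∈ IsLocalRing.maximalIdeal R := hbu
          have := (IsLocalRing.maximalIdeal R).sub_mem hmem hbmem
          rw [add_sub_cancel_right] at this
          exact this hi
        · simpa using hi

end Fermat.Agent.Helper5
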