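import Mathlib
import Fermat.Prelude.Def_EllipticCurve_FrobeniusTrace
import Fermat.Agent.Helper5.Kaplansky

set_option autoImplicit false

namespace Fermat.Agent.Helper5

open scoped Pointwise

noncomputable section

/-- `ℚ̄`. -/
abbrev Qbar := AlgebraicClosure ℚ
/-- The absolute Galois group of `ℚ`. -/
abbrev GQ := Qbar ≃ₐ[ℚ] Qbar
/-- `ℤ̄` as a subalgebra of `ℚ̄`. -/
abbrev Zbar : Subalgebra ℤ Qbar := integralClosure ℤ Qbar

instance instIsAlgebraicQbar : Algebra.IsAlgebraic ℚ Qbar := AlgebraicClosure.isAlgebraic ℚ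
instance instIsAlgClosureQbar : IsAlgClosure ℚ Qbar := ⟨inferInstance, inferInstance⟩

instance instTopZbar : TopologicalSpace Zbar := ⊥
instance instDiscZbar : DiscreteTopology Zbar := ⟨rfl⟩

instance instContSMulZbar : ContinuousSMul GQ Zbar := by
  rw [continuousSMul_iff_stabilizer_isOpen]
  intro x
  have h := stabilizer_isOpen_of_isIntegral (K := ℚ) (L := Qbar) (x : Qbar)
  convert h using 1
  ext g
  simp only [SetLike.mem_coe, MulAction.mem_stabilizer_iff]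
  constructor
  · intro hg
    have := congrArg (fun y : Zbar => (y : Qbar)) hg
    simpa using this
  · intro hg
    apply Subtype.ext
    simpa using hg

instance instIsInvariantZbar : Algebra.IsInvariant ℤ Zbar GQ := by
  refine ⟨fun b hb => ?_⟩
  have h1 : (b : Qbar) ∈ Set.range (algebraMap ℚ Qbar) := by
    rw [InfiniteGalois.mem_range_algebraMap_iff_fixed]
    intro f
    have := congrArg (fun y : Zbar => (y : Qbar)) (hb f)
    simpa using this
  obtain ⟨q, hq⟩ := h1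
  have hint : IsIntegral ℤ (algebraMap ℚ Qbar q) := by rw [hq]; exact b.2
  rw [isIntegral_algebraMap_iff (FaithfulSMul.algebraMap_injective ℚ Qbar)] at hint
  obtain ⟨a, ha⟩ := IsIntegrallyClosed.algebraMap_eq_of_integral hint
  refine ⟨a, Subtype.ext ?_⟩
  rw [← hq, ← ha]
  simp

/-- There is a prime of `ℤ̄` over each rational prime. -/
theorem exists_prime_over (ℓ : ℕ) (hℓ : ℓ.Prime) :
    ∃ Q : Ideal Zbar, Q.IsMaximal ∧ Q.LiesOver (Ideal.span {(ℓ : ℤ)}) := by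
  have hmax : (Ideal.span {(ℓ : ℤ)}).IsMaximal :=
    (Ideal.span_singleton_prime (by exact_mod_cast hℓ.ne_zero)).mpr
      (Nat.prime_iff_prime_int.mp hℓ) |>.isMaximal (by simpa using hℓ.ne_zero)
  haveI : Algebra.IsIntegral ℤ Zbar := inferInstance
  obtain ⟨Q, hQ, hQo⟩ := Ideal.exists_ideal_over_maximal_of_isIntegral (S := Zbar)
    (Ideal.span {(ℓ : ℤ)}) (by
      rw [(RingHom.injective_iff_ker_eq_bot _).mp (FaithfulSMul.algebraMap_injective ℤ Zbar)]
      exact bot_le)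
  exact ⟨Q, hQ, ⟨hQo.symm⟩⟩

section Frob

variable (ℓ : ℕ) [hℓ : Fact ℓ.Prime] (Q : Ideal Zbar) [hQ : Q.IsMaximal]
  [hQl : Q.LiesOver (Ideal.span {(ℓ : ℤ)})]

theorem natCast_mem_of_liesOver : (ℓ : Zbar) ∈ Q := by
  have h := hQl.over
  have h1 : (ℓ : ℤ) ∈ Ideal.span {(ℓ : ℤ)} := Ideal.subset_span rfl
  rw [h] at h1
  simpa using h1

theorem charP_quot : CharP (Zbar ⧸ Q) ℓ := by
  have h0 : ((ℓ : ℕ) : Zbar ⧸ Q) = 0 := by
    have := natCast_mem_of_liesOver ℓ Q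
    rw [← Ideal.Quotient.eq_zero_iff_mem] at this
    simpa using this
  haveI : Nontrivial (Zbar ⧸ Q) := Ideal.Quotient.nontrivial_iff.mpr hQ.ne_top
  apply ringChar.of_eq
  have hdvd : ringChar (Zbar ⧸ Q) ∣ ℓ := (ringChar.spec _ _).mp h0
  rcases (Nat.dvd_prime hℓ.out).mp hdvd with h1 | h1
  · exact absurd h1 (CharP.ringChar_ne_one)
  · exact h1

/-- `x ↦ x ^ ℓ` is surjective on `ℤ̄ / Q`. -/
theorem frobenius_surjective_quot :
    haveI := charP_quot ℓ Q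
    Function.Surjective (frobenius (Zbar ⧸ Q) ℓ) := by
  haveI := charP_quot ℓ Q
  intro x
  obtain ⟨b, rfl⟩ := Ideal.Quotient.mk_surjective x
  obtain ⟨y, hy⟩ := IsAlgClosed.exists_pow_nat_eq (b : Qbar) hℓ.out.pos
  have hyint : IsIntegral ℤ y := by
    have : IsIntegral ℤ (y ^ ℓ) := by rw [hy]; exact b.2
    exact IsIntegral.of_pow hℓ.out.pos this
  refine ⟨Ideal.Quotient.mk Q ⟨y, hyint⟩, ?_⟩
  rw [frobenius_def, ← map_pow]
  congr 1
  exact Subtype.ext hy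

/-- The Frobenius of `ℤ̄ / Q` as an algebra automorphism over `ℤ / ℓ`. -/
def frobAlgEquiv : (Zbar ⧸ Q) ≃ₐ[ℤ ⧸ Ideal.span {(ℓ : ℤ)}] (Zbar ⧸ Q) :=
  haveI : IsDomain (Zbar ⧸ Q) := (Ideal.Quotient.isDomain_iff_prime Q).mpr hQ.isPrime
  haveI := charP_quot ℓ Q
  AlgEquiv.ofBijective
    { toRingHom := frobenius (Zbar ⧸ Q) ℓ
      commutes' := by
        intro r
        obtain ⟨n, rfl⟩ := Ideal.Quotient.mk_surjective r
        have : (algebraMap (ℤ ⧸ Ideal.span {(ℓ : ℤ)}) (Zbar ⧸ Q)) (Ideal.Quotient.mk _ n)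
            = ((n : ℤ) : Zbar ⧸ Q) := by
          rw [Ideal.Quotient.algebraMap_mk_of_liesOver]
          simp
        simp only [RingHom.toMonoidHom_eq_coe, OneHom.toFun_eq_coe, MonoidHom.toOneHom_coe,
          MonoidHom.coe_coe]
        rw [this, map_intCast] }
    ⟨frobenius_inj (Zbar ⧸ Q) ℓ, frobenius_surjective_quot ℓ Q⟩

theorem frobAlgEquiv_apply (x : Zbar ⧸ Q) : frobAlgEquiv ℓ Q x = x ^ ℓ := by
  haveI := charP_quot ℓ Q
  rfl

/-- A Galois element stabilising `Q` and inducing Frobenius on `ℤ̄ / Q`. -/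
theorem exists_frob_stabilizer :
    ∃ σ : GQ, σ • Q = Q ∧ ∀ b : Zbar, σ • b - b ^ ℓ ∈ Q := by
  obtain ⟨⟨σ, hσQ⟩, hσ⟩ := Ideal.Quotient.stabilizerHom_surjective_of_profinite (G := GQ)
    (Ideal.span {(ℓ : ℤ)}) Q (frobAlgEquiv ℓ Q)
  refine ⟨σ, hσQ, fun b => ?_⟩
  have h := congrArg (fun f => f (Ideal.Quotient.mk Q b)) hσ
  simp only [Ideal.Quotient.stabilizerHom_apply, frobAlgEquiv_apply] at h
  rw [← map_pow, Ideal.Quotient.eq] at h
  exact h

end Frob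

section Val

open Polynomial

abbrev ZbarS : Subring Qbar := Zbar.toSubring
variable (Q : Ideal Zbar) [hQ : Q.IsPrime]
abbrev QS : Ideal ZbarS := Q
instance : (QS Q).IsPrime := hQ
abbrev Rloc : LocalSubring Qbar := LocalSubring.ofPrime ZbarS (QS Q)

theorem mem_Rloc_iff (x : Qbar) :
    x ∈ (Rloc Q).toSubring ↔ ∃ s : Zbar, s ∉ Q ∧ (s : Qbar) * x ∈ Zbar := by
  constructor
  · intro hx
    obtain ⟨a, s, h⟩ := IsLocalization.exists_mk'_eq (QS Q).primeCompl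
      (S := (Rloc Q).toSubring) ⟨x, hx⟩
    have h2 := IsLocalization.mk'_spec (Rloc Q).toSubring a s
    rw [h] at h2
    have h3 := congrArg (fun y : (Rloc Q).toSubring => (y : Qbar)) h2
    simp only [Subring.coe_mul] at h3
    refine ⟨s.1, s.2, ?_⟩
    have h4 : ((s.1 : Zbar) : Qbar) * x = ((a : Zbar) : Qbar) := by
      rw [mul_comm]; exact h3
    rw [h4]
    exact a.2
  · rintro ⟨s, hs, hsx⟩
    have hs0 : (s : Qbar) ≠ 0 := by
      intro h0
      apply hs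
      have : s = 0 := Subtype.ext h0
      rw [this]; exact Q.zero_mem
    let a : ZbarS := ⟨(s : Qbar) * x, hsx⟩
    let s' : (QS Q).primeCompl := ⟨s, hs⟩
    have h2 := IsLocalization.mk'_spec (Rloc Q).toSubring a s'
    have h3 := congrArg (fun y : (Rloc Q).toSubring => (y : Qbar)) h2
    simp only [Subring.coe_mul] at h3
    have h4 : ((IsLocalization.mk' (Rloc Q).toSubring a s' : (Rloc Q).toSubring) : Qbar) * (s : Qbar)
        = (s : Qbar) * x := h3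
    have h5 : ((IsLocalization.mk' (Rloc Q).toSubring a s' : (Rloc Q).toSubring) : Qbar) = x := by
      apply mul_right_cancel₀ hs0
      rw [h4]; ring
    rw [← h5]
    exact Subtype.property _

theorem Rloc_integrallyClosed (x : Qbar) (hx : IsIntegral (Rloc Q).toSubring x) :
    x ∈ (Rloc Q).toSubring := by
  obtain ⟨m, hm⟩ := IsIntegral.exists_multiple_integral_of_isLocalization (R := ZbarS)
    (QS Q).primeCompl (Rₘ := (Rloc Q).toSubring) x hx
  have h1 : IsIntegral ℤ (m • x) := by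
    have : Algebra.IsIntegral ℤ ZbarS := (inferInstance : Algebra.IsIntegral ℤ Zbar)
    exact isIntegral_trans (R := ℤ) (A := ZbarS) _ hm
  rw [mem_Rloc_iff]
  exact ⟨m.1, m.2, h1⟩

variable (ℓ : ℕ) [hℓ : Fact ℓ.Prime] [hQl : Q.LiesOver (Ideal.span {(ℓ : ℤ)})]

include hQl in
theorem intCast_mem_iff (n : ℤ) : (n : Zbar) ∈ Q ↔ (ℓ : ℤ) ∣ n := by
  have h := hQl.over
  rw [← Ideal.mem_span_singleton, h, Ideal.mem_comap]
  simp

include hℓ hQl in
theorem Rloc_mem_or_inv_mem (x : Qbar) :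
    x ∈ (Rloc Q).toSubring ∨ x⁻¹ ∈ (Rloc Q).toSubring := by
  by_cases hx0 : x = 0
  · left; rw [hx0]; exact zero_mem _
  have halg : IsAlgebraic ℤ x :=
    (IsFractionRing.isAlgebraic_iff ℤ ℚ Qbar).mpr (Algebra.IsAlgebraic.isAlgebraic x)
  obtain ⟨p, hp0, hpx⟩ := halg
  have hprim := p.isPrimitive_primPart
  have hpx' : aeval x p.primPart = 0 := aeval_primPart_eq_zero hp0 hpx
  have hex : ∃ i, ¬ (ℓ : ℤ) ∣ p.primPart.coeff i := by
    by_contra hall
    rw [not_exists] at hall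
    have hall' : ∀ i, (ℓ : ℤ) ∣ p.primPart.coeff i := fun i => not_not.mp (hall i)
    have hd := (C_dvd_iff_dvd_coeff _ _).mpr hall'
    have hu := hprim _ hd
    exact (Nat.prime_iff_prime_int.mp hℓ.out).not_unit hu
  obtain ⟨i, hi⟩ := hex
  let f : Polynomial (Rloc Q).toSubring := p.primPart.map (algebraMap ℤ (Rloc Q).toSubring)
  refine mem_or_inv_mem_of_aeval_eq_zero (Rloc Q).toSubring (Rloc_integrallyClosed Q)
    f.natDegree f le_rfl ⟨i, ?_⟩ x hx0 ?_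
  · rw [coeff_map]
    have hn : ((p.primPart.coeff i : ℤ) : Zbar) ∉ Q := by
      rw [intCast_mem_iff Q ℓ]; exact hi
    have hu := IsLocalization.map_units (Rloc Q).toSubring
      (⟨((p.primPart.coeff i : ℤ) : ZbarS), hn⟩ : (QS Q).primeCompl)
    simp only [map_intCast] at hu
    simpa using hu
  · rw [aeval_map_algebraMap]; exact hpx'


/-- The localisation of `ℤ̄` at a prime over `ℓ`, as a valuation subring of `ℚ̄`. -/
def Vloc : ValuationSubring Qbar :=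
  { (Rloc Q).toSubring with mem_or_inv_mem' := Rloc_mem_or_inv_mem Q ℓ }

theorem mem_Vloc_iff (x : Qbar) :
    x ∈ Vloc Q ℓ ↔ ∃ s : Zbar, s ∉ Q ∧ (s : Qbar) * x ∈ Zbar := mem_Rloc_iff Q x

theorem coe_ne_zero_of_not_mem {s : Zbar} (hs : s ∉ Q) : (s : Qbar) ≠ 0 := by
  intro h0
  apply hs
  have : s = 0 := Subtype.ext h0
  rw [this]; exact Q.zero_mem

theorem mem_nonunits_Vloc_iff (x : Qbar) :
    x ∈ (Vloc Q ℓ).nonunits ↔ ∃ s : Zbar, s ∉ Q ∧ ∃ b : Zbar, b ∈ Q ∧ (s : Qbar) * x = b := by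
  rw [ValuationSubring.mem_nonunits_iff_or]
  constructor
  · rintro (rfl | hx)
    · exact ⟨1, (Ideal.ne_top_iff_one Q).mp hQ.ne_top, 0, Q.zero_mem, by simp⟩
    · have hxV : x ∈ Vloc Q ℓ := by
        rcases (Vloc Q ℓ).mem_or_inv_mem x with h | h
        · exact h
        · exact absurd h hx
      obtain ⟨s, hs, hsx⟩ := (mem_Vloc_iff Q ℓ x).mp hxV
      refine ⟨s, hs, ⟨_, hsx⟩, ?_, rfl⟩
      by_contra hb
      apply hx
      rw [mem_Vloc_iff]
      refine ⟨⟨_, hsx⟩, hb, ?_⟩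
      by_cases hx0 : x = 0
      · simp [hx0]
      · have : (s : Qbar) * x * x⁻¹ = s := by field_simp
        rw [this]; exact s.2
  · rintro ⟨s, hs, b, hb, hsx⟩
    by_cases hx0 : x = 0
    · left; exact hx0
    right
    intro hxinv
    obtain ⟨t, ht, htx⟩ := (mem_Vloc_iff Q ℓ _).mp hxinv
    have hst : s * t ∈ Q := by
      have : s * t = b * ⟨_, htx⟩ := by
        apply Subtype.ext
        simp only [Subalgebra.coe_mul]
        rw [← hsx]; field_simp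
      rw [this]; exact Q.mul_mem_right _ hb
    rcases hQ.mem_or_mem hst with h | h
    · exact hs h
    · exact ht h

theorem natCast_mem_nonunits_Vloc : (ℓ : Qbar) ∈ (Vloc Q ℓ).nonunits := by
  rw [mem_nonunits_Vloc_iff]
  refine ⟨1, (Ideal.ne_top_iff_one Q).mp hQ.ne_top, (ℓ : Zbar), ?_, by simp⟩
  have := (intCast_mem_iff Q ℓ (ℓ : ℤ)).mpr dvd_rfl
  simpa using this

theorem smul_mem_Vloc {τ : GQ} (hτ : τ • Q = Q) {x : Qbar} (hx : x ∈ Vloc Q ℓ) :
    τ • x ∈ Vloc Q ℓ := by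
  rw [mem_Vloc_iff] at hx ⊢
  obtain ⟨s, hs, hsx⟩ := hx
  refine ⟨τ • s, ?_, ?_⟩
  · intro h
    apply hs
    rw [← hτ] at h
    exact Ideal.smul_mem_pointwise_smul_iff.mp h
  · have : ((τ • s : Zbar) : Qbar) * τ • x = τ • ((s : Qbar) * x) := by
      rw [smul_mul']; rfl
    rw [this]
    exact (τ • (⟨_, hsx⟩ : Zbar)).2

theorem smul_Vloc_eq {τ : GQ} (hτ : τ • Q = Q) : τ • Vloc Q ℓ = Vloc Q ℓ := by
  have hτ' : τ⁻¹ • Q = Q := by
    conv_lhs => rw [← hτ]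
    rw [inv_smul_smul]
  ext x
  rw [ValuationSubring.mem_pointwise_smul_iff_inv_smul_mem]
  constructor
  · intro h
    have := smul_mem_Vloc Q ℓ hτ h
    rwa [smul_inv_smul] at this
  · intro h
    exact smul_mem_Vloc Q ℓ hτ' h


theorem isFrobeniusAt_Vloc {σ : GQ} (hσ : σ • Q = Q) (hfrob : ∀ b : Zbar, σ • b - b ^ ℓ ∈ Q) :
    (Vloc Q ℓ).IsFrobeniusAt σ ℓ := by
  refine ⟨smul_Vloc_eq Q ℓ hσ, fun x => ?_⟩
  obtain ⟨v, rfl⟩ := IsLocalRing.residue_surjective x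
  rw [← IsLocalRing.ResidueField.residue_smul, ← map_pow, ← sub_eq_zero, ← map_sub,
    IsLocalRing.residue_eq_zero_iff, ← ValuationSubring.coe_mem_nonunits_iff,
    mem_nonunits_Vloc_iff]
  obtain ⟨s, hs, hsv⟩ := (mem_Vloc_iff Q ℓ v).mp v.2
  have hσs : σ • s ∉ Q := by
    intro h
    apply hs
    rw [← hσ] at h
    exact Ideal.smul_mem_pointwise_smul_iff.mp h
  set a : Zbar := ⟨_, hsv⟩ with ha
  refine ⟨σ • s * s ^ ℓ, ?_, s ^ ℓ * (σ • a - a ^ ℓ) - (σ • s - s ^ ℓ) * a ^ ℓ, ?_, ?_⟩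
  · intro h
    rcases hQ.mem_or_mem h with h | h
    · exact hσs h
    · exact hs (hQ.mem_of_pow_mem _ h)
  · exact Q.sub_mem (Q.mul_mem_left _ (hfrob a)) (Q.mul_mem_right _ (hfrob s))
  · have h1 : ((σ • a : Zbar) : Qbar) = σ • (s : Qbar) * σ • (v : Qbar) := by
      rw [← smul_mul']; rfl
    have h2 : (a : Qbar) = (s : Qbar) * (v : Qbar) := rfl
    have h3 : ((σ • s : Zbar) : Qbar) = σ • (s : Qbar) := rfl
    have h4 : (((⟨σ, smul_Vloc_eq Q ℓ hσ⟩ : (Vloc Q ℓ).decompositionSubgroup ℚ) • v - v ^ ℓ : Vloc Q ℓ) : Qbar)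
        = σ • (v : Qbar) - (v : Qbar) ^ ℓ := rfl
    rw [h4]
    push_cast
    rw [h1, h2, h3]
    ring


end Val

/-- Frobenius elements exist: for every prime `ℓ` there are a valuation subring of `ℚ̄` over `ℓ`
and a Galois element which is a Frobenius at it. -/
theorem exists_isFrobeniusAt (ℓ : ℕ) (hℓ : ℓ.Prime) :
    ∃ (A : ValuationSubring (AlgebraicClosure ℚ))
      (σ : AlgebraicClosure ℚ ≃ₐ[ℚ] AlgebraicClosure ℚ),
      A.LiesOverPrime ℓ ∧ A.IsFrobeniusAt σ ℓ := by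
  haveI : Fact ℓ.Prime := ⟨hℓ⟩
  obtain ⟨Q, hQmax, hQl⟩ := exists_prime_over ℓ hℓ
  haveI := hQmax
  haveI := hQl
  haveI : Q.IsPrime := hQmax.isPrime
  obtain ⟨σ, hσQ, hσ⟩ := exists_frob_stabilizer ℓ Q
  exact ⟨Vloc Q ℓ, σ, natCast_mem_nonunits_Vloc Q ℓ, isFrobeniusAt_Vloc Q ℓ hσQ hσ⟩

end

end Fermat.Agent.Helper5
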